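/-
S55, layer G, leaf G-FI (first inequality), part 0 (helper895): abstract Herbrand bookkeeping
for a map `φ : J → C` with kernel `ι(E)` and finite cokernel.

`kerCoker`: if `E ≤ U`, `ι : U → J` injective, `φ : J → C` with `ker φ = ι(E)` and
`[C : φ(J)] < ∞`, everything compatible with pairs of endomorphisms `(f, g)` with
`fg = gf = 0` on `J` and `C`, then from finiteness of the Herbrand indices of `E` and `J`
we get finiteness for `C` and `h₀(E) h₀(C) h₁(J) = h₁(E) h₁(C) h₀(J)`.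
-/
import Mathlib
import Fermat.Agent.S55.Herbrand.Basic
import Fermat.Agent.S55.Herbrand.FiniteIndex
import Fermat.Agent.S55.G.HerbrandRel

set_option autoImplicit false

namespace Fermat.Agent.S55.G.FIH895

open Fermat.Agent.S55.Herbrand Fermat.Agent.S55.G

variable {U J C : Type*} [AddCommGroup U] [AddCommGroup J] [AddCommGroup C]

/-- Herbrand indices of the kernel and of the range of an equivariant map `φ : J → C`:
`h₀(ker φ) h₀(im φ) h₁(J) = h₁(ker φ) h₁(im φ) h₀(J)` and finiteness of the indices of `im φ`. -/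
theorem ker_range (fJ gJ : J →+ J) (fC gC : C →+ C) (φ : J →+ C)
    (hφf : ∀ j, φ (fJ j) = fC (φ j)) (hφg : ∀ j, φ (gJ j) = gC (φ j))
    (hJfg : ∀ j, fJ (gJ j) = 0) (hJgf : ∀ j, gJ (fJ j) = 0)
    (hE : hIndexSub fJ gJ φ.ker ≠ 0 ∧ hIndexSub gJ fJ φ.ker ≠ 0)
    (hJ : hIndex fJ gJ ≠ 0 ∧ hIndex gJ fJ ≠ 0) :
    (hIndexSub fC gC φ.range ≠ 0 ∧ hIndexSub gC fC φ.range ≠ 0) ∧
      hIndexSub fJ gJ φ.ker * hIndexSub fC gC φ.range * hIndex gJ fJ =
        hIndexSub gJ fJ φ.ker * hIndexSub gC fC φ.range * hIndex fJ gJ := by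
  obtain ⟨Ef, Eg, w, y, w', y', h1, h2, h3, h4, h5, h6⟩ :=
    hIndexSub_six fJ gJ fC gC φ hφf hφg ⊤ (fun _ _ => trivial) (fun _ _ => trivial)
      (fun b _ => hJfg b) (fun b _ => hJgf b)
  rw [inf_top_eq] at h1 h4
  rw [hIndexSub_top] at h2 h5
  rw [← AddMonoidHom.range_eq_map] at h3 h6
  obtain ⟨e1, e2⟩ := hE
  obtain ⟨j1, j2⟩ := hJ
  rw [h1] at e1
  rw [h4] at e2
  rw [h2] at j1
  rw [h5] at j2
  rw [h1, h2, h3, h4, h5, h6]
  have hEg : Eg ≠ 0 := left_ne_zero_of_mul e1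
  have hEf : Ef ≠ 0 := left_ne_zero_of_mul e2
  have hy : y ≠ 0 := right_ne_zero_of_mul j1
  have hy' : y' ≠ 0 := right_ne_zero_of_mul j2
  refine ⟨⟨mul_ne_zero hEf hy, mul_ne_zero hEg hy'⟩, ?_⟩
  ring

/-- **Kernel–cokernel bookkeeping.**  `E ≤ U`, `ι : U → J` injective, `φ : J → C` with
`ker φ = ι(E)` and finite cokernel: finiteness of the Herbrand indices of `E` and `J` gives
finiteness for `C`, and `h₀(E) h₀(C) h₁(J) = h₁(E) h₁(C) h₀(J)`. -/
theorem kerCoker (fU gU : U →+ U) (fJ gJ : J →+ J) (fC gC : C →+ C)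
    (ι : U →+ J) (φ : J →+ C) (E : AddSubgroup U)
    (hι : Function.Injective ι)
    (hιf : ∀ u, ι (fU u) = fJ (ι u)) (hιg : ∀ u, ι (gU u) = gJ (ι u))
    (hφf : ∀ j, φ (fJ j) = fC (φ j)) (hφg : ∀ j, φ (gJ j) = gC (φ j))
    (hker : φ.ker = E.map ι) (hfin : φ.range.index ≠ 0)
    (hJfg : ∀ j, fJ (gJ j) = 0) (hJgf : ∀ j, gJ (fJ j) = 0)
    (hCfg : ∀ c, fC (gC c) = 0) (hCgf : ∀ c, gC (fC c) = 0)
    (hE : hIndexSub fU gU E ≠ 0 ∧ hIndexSub gU fU E ≠ 0)
    (hJ : hIndex fJ gJ ≠ 0 ∧ hIndex gJ fJ ≠ 0) :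
    (hIndex fC gC ≠ 0 ∧ hIndex gC fC ≠ 0) ∧
      hIndexSub fU gU E * hIndex fC gC * hIndex gJ fJ =
        hIndexSub gU fU E * hIndex gC fC * hIndex fJ gJ := by
  have t1 : hIndexSub fJ gJ φ.ker = hIndexSub fU gU E := by
    rw [hker]
    exact hIndexSub_map_of_injective fU gU fJ gJ ι hι hιf hιg E
  have t2 : hIndexSub gJ fJ φ.ker = hIndexSub gU fU E := by
    rw [hker]
    exact hIndexSub_map_of_injective gU fU gJ fJ ι hι hιg hιf E
  obtain ⟨⟨r1, r2⟩, hr⟩ := ker_range fJ gJ fC gC φ hφf hφg hJfg hJgf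
    (by rw [t1, t2]; exact hE) hJ
  rw [t1, t2] at hr
  have hstab_f : ∀ x ∈ φ.range, fC x ∈ φ.range := by
    rintro _ ⟨j, rfl⟩
    exact ⟨fJ j, hφf j⟩
  have hstab_g : ∀ x ∈ φ.range, gC x ∈ φ.range := by
    rintro _ ⟨j, rfl⟩
    exact ⟨gJ j, hφg j⟩
  obtain ⟨hiff, hq⟩ := hIndexSub_of_finite_index fC gC φ.range ⊤ le_top
    (by rwa [AddSubgroup.relIndex_top_right])
    hstab_f hstab_g (fun _ _ => trivial) (fun _ _ => trivial)
    (fun b _ => hCfg b) (fun b _ => hCgf b)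
  rw [hIndexSub_top, hIndexSub_top] at hiff hq
  have hC := hiff.1 ⟨r1, r2⟩
  refine ⟨hC, ?_⟩
  -- `hr : a * r * b' = a' * r' * b`, `hq : r * c' = r' * c`
  have key : (hIndexSub fU gU E * hIndex fC gC * hIndex gJ fJ) *
      (hIndexSub gC fC φ.range * hIndexSub fC gC φ.range) =
      (hIndexSub gU fU E * hIndex gC fC * hIndex fJ gJ) *
      (hIndexSub gC fC φ.range * hIndexSub fC gC φ.range) := by
    calc (hIndexSub fU gU E * hIndex fC gC * hIndex gJ fJ) *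
        (hIndexSub gC fC φ.range * hIndexSub fC gC φ.range)
        = (hIndexSub fU gU E * hIndexSub fC gC φ.range * hIndex gJ fJ) *
          (hIndexSub gC fC φ.range * hIndex fC gC) := by ring
      _ = (hIndexSub gU fU E * hIndexSub gC fC φ.range * hIndex fJ gJ) *
          (hIndexSub fC gC φ.range * hIndex gC fC) := by rw [hr, ← hq]
      _ = _ := by ring
  exact Nat.eq_of_mul_eq_mul_right (Nat.pos_of_ne_zero (mul_ne_zero r2 r1)) key

end Fermat.Agent.S55.G.FIH895
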