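/-
S55, layer G, leaf **G-FI : the FIRST INEQUALITY** in Herbrand form (helper895), on helper421's
intrinsic model (`G/Defs.lean`).

For `L/K` a cyclic extension of number fields, `G = Gal(L/K) = ⟨σ⟩`, `S` a finite nonempty set
of rational primes, `C_S(L) = (J_S(L) × Div^S(L)) / Lˣ`:

  `h₀(C_S(L)) * ∏_{v | ∞} n_v = h₁(C_S(L)) * [L : K]`,   both finite

(`firstIneqSpec_of`), i.e. `|H²(G, C_S(L))| * ∏ n_v = |H¹(G, C_S(L))| * [L : K]`
(`firstIneq_card_of`), and `|H²(G, C_S(L))| = [L : K] * |H¹(G, C_S(L))|` for `[L : K]` odd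
(`firstIneq_card_of_odd`).

INPUTS (explicit hypotheses):
* `SUnitsHerbrandSpec` (block G-U, helper595, PROVED on main: `sUnitsHerbrandSpec`);
* `JHerbrandSpec` : `h₀(J_S(L)) = ∏_{v ∈ S_K} e_v f_v`, `h₁(J_S(L)) = 1`
  (leaf G-LOC + local norm index of layer L);
* `ClSFiniteSpec` : `[Div^S(L) : div(Lˣ)] < ∞` (finiteness of the `S`-class group, leaf G-SES).

The bookkeeping is the sequence `0 → E_S → J_S → C_S → Cl_S → 0`
(`jToC_ker`, `unitsDiag_injective`, `jToC_range_index`), see `KerCokerH895.lean`.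
No `sorry`.
-/
import Mathlib
import Fermat.Agent.S55.G.Defs
import Fermat.Agent.S55.G.SpecUnits
import Fermat.Agent.S55.Herbrand.RepCyclic
import Fermat.Agent.S55.G.FI.KerCokerH895

set_option autoImplicit false
set_option linter.unusedSectionVars false
set_option linter.style.haveILetI false

open Fermat.Agent.S55.G Fermat.Agent.S55.Herbrand
open scoped NumberField TensorProduct
open IsDedekindDomain

namespace Fermat.Agent.S55.G.FIH895

/-! ## 1. The primes of `K` above `S` -/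

section Primes

variable (S : Finset Nat.Primes) (K : Type) [Field K] [NumberField K]

lemma natCast_ne_zero_of_prime (q : Nat.Primes) : ((q : ℕ) : 𝓞 K) ≠ 0 := by
  exact_mod_cast q.2.ne_zero

/-- The set of primes of `K` above `S` is finite. -/
lemma finite_isAbove : {v : HeightOneSpectrum (𝓞 K) | IsAbove S K v}.Finite := by
  classical
  have h : {v : HeightOneSpectrum (𝓞 K) | IsAbove S K v} ⊆
      ⋃ q ∈ S, {v : HeightOneSpectrum (𝓞 K) | v.asIdeal ∣ Ideal.span {((q : ℕ) : 𝓞 K)}} := by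
    rintro v ⟨q, hq, hv⟩
    simp only [Set.mem_iUnion, Set.mem_ofPred_eq, exists_prop]
    refine ⟨q, hq, ?_⟩
    rw [Ideal.dvd_iff_le, Ideal.span_singleton_le_iff_mem]
    exact hv
  refine Set.Finite.subset ?_ h
  refine Set.Finite.biUnion S.finite_toSet fun q _ => ?_
  apply Ideal.finite_factors
  intro h0
  rw [Ideal.zero_eq_bot, Ideal.span_singleton_eq_bot] at h0
  exact natCast_ne_zero_of_prime K q h0

/-- The finite set `S_K` of primes of `K` above `S`. -/
noncomputable def primesOver : Finset (HeightOneSpectrum (𝓞 K)) := (finite_isAbove S K).toFinset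

lemma mem_primesOver_iff (v : HeightOneSpectrum (𝓞 K)) : v ∈ primesOver S K ↔ IsAbove S K v := by
  simp [primesOver]

end Primes

section Above

variable (S : Finset Nat.Primes) (K L : Type) [Field K] [Field L] [NumberField K] [NumberField L]
  [Algebra K L]

/-- The primes of `L` over `S_K` are the primes of `L` above `S`. -/
lemma primesAbove_primesOver :
    primesAbove K L (primesOver S K) = {w | IsAbove S L w} := by
  ext w
  simp only [primesAbove, Set.mem_ofPred_eq, mem_primesOver_iff]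
  constructor
  · rintro ⟨v, ⟨q, hq, hv⟩, hwv⟩
    refine ⟨q, hq, ?_⟩
    rw [← hwv, Ideal.under_def, Ideal.mem_comap, map_natCast] at hv
    exact hv
  · rintro ⟨q, hq, hw⟩
    have hmem : ((q : ℕ) : 𝓞 K) ∈ w.asIdeal.under (𝓞 K) := by
      rw [Ideal.under_def, Ideal.mem_comap, map_natCast]
      exact hw
    have hne : w.asIdeal.under (𝓞 K) ≠ ⊥ := by
      intro h
      rw [h, Ideal.mem_bot] at hmem
      exact natCast_ne_zero_of_prime K q hmem
    exact ⟨⟨w.asIdeal.under (𝓞 K), inferInstance, hne⟩, ⟨q, hq, hmem⟩, rfl⟩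

/-- helper595's `T`-units for `T = S_K` are helper421's `S`-units. -/
lemma sUnits_primesOver : sUnits K L (primesOver S K) = (sUnit S L).toAddSubgroup := by
  ext x
  unfold sUnits
  rw [primesAbove_primesOver]
  change x.toMul ∈ Set.unit _ L ↔ x ∈ sUnit S L
  rw [mem_sUnit_iff]
  constructor
  · intro h w
    rw [ordAt_eq_zero_iff]
    exact h w.1 w.2
  · intro h w hw
    have := h ⟨w, hw⟩
    rwa [ordAt_eq_zero_iff] at this

end Above

/-! ## 2. The diagonal embedding is injective -/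

section Diag

variable (S : Finset Nat.Primes) (L : Type) [Field L] [CharZero L]

lemma nontrivial_QS (hS : S.Nonempty) : Nontrivial (QS S) := by
  obtain ⟨q, hq⟩ := hS
  haveI : Nonempty S := ⟨⟨q, hq⟩⟩
  exact inferInstanceAs (Nontrivial (∀ q : S, Qq q.1))

lemma asDiag_injective (hS : S.Nonempty) : Function.Injective (asDiag S L) := by
  haveI := nontrivial_QS S hS
  exact Algebra.TensorProduct.includeLeft_injective (S := ℚ) (algebraMap ℚ (QS S)).injective

lemma unitsDiag_injective (hS : S.Nonempty) : Function.Injective (unitsDiag S L) := by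
  intro x y h
  apply Additive.toMul.injective
  apply Units.ext
  apply asDiag_injective S L hS
  have := congrArg (fun z : Additive (AS S L)ˣ => ((z.toMul : (AS S L)ˣ) : AS S L)) h
  simpa only [coe_unitsDiag_apply] using this

end Diag

/-! ## 3. The map `J_S(L) → C_S(L)`: kernel, range, equivariance -/

section JToC

variable (S : Finset Nat.Primes) (L : Type) [Field L] [NumberField L]

/-- The map `J_S(L) → C_S(L)` as an additive map. -/
noncomputable def jToC : Additive (AS S L)ˣ →+ CS S L :=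
  ((principal S L).mkQ.toAddMonoidHom).comp
    (AddMonoidHom.inl (Additive (AS S L)ˣ) (PrimeOut S L →₀ ℤ))

lemma jToC_apply (j : Additive (AS S L)ˣ) :
    jToC S L j = (principal S L).mkQ ((j, 0) : JD S L) := rfl

/-- `ker (J_S → C_S) = E_S` (embedded diagonally). -/
lemma jToC_ker : (jToC S L).ker = (sUnit S L).toAddSubgroup.map (unitsDiag S L) := by
  ext j
  rw [AddMonoidHom.mem_ker, jToC_apply, Submodule.mkQ_apply, Submodule.Quotient.mk_eq_zero,
    mem_principal_iff, AddSubgroup.mem_map]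
  constructor
  · rintro ⟨x, hx⟩
    have h1 : unitsDiag S L x = j := congrArg Prod.fst hx
    have h2 : ordHom S L x = 0 := congrArg Prod.snd hx
    exact ⟨x, h2, h1⟩
  · rintro ⟨x, hx, rfl⟩
    refine ⟨x, Prod.ext rfl ?_⟩
    exact hx

lemma jToC_range : (jToC S L).range = (jImage S L).toAddSubgroup := by
  ext c
  constructor
  · rintro ⟨j, rfl⟩
    exact ⟨j, rfl⟩
  · rintro ⟨j, rfl⟩
    exact ⟨j, rfl⟩

/-- `[C_S : im J_S] = [Div^S : div(Lˣ)]` (the order of the `S`-class group). -/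
lemma jToC_range_index : (jToC S L).range.index = (ordHom S L).range.index := by
  have h1 : (jToC S L).range =
      ((AddMonoidHom.inl (Additive (AS S L)ˣ) (PrimeOut S L →₀ ℤ)).range).map
        (principal S L).mkQ.toAddMonoidHom := by
    rw [jToC, AddMonoidHom.range_comp]
  have hsurj : Function.Surjective (principal S L).mkQ.toAddMonoidHom :=
    (principal S L).mkQ_surjective
  have hker : ((principal S L).mkQ.toAddMonoidHom).ker = (principal S L).toAddSubgroup := by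
    ext y
    rw [AddMonoidHom.mem_ker]
    exact Submodule.Quotient.mk_eq_zero _
  have h2 : (AddMonoidHom.inl (Additive (AS S L)ˣ) (PrimeOut S L →₀ ℤ)).range ⊔
      (principal S L).toAddSubgroup =
      (ordHom S L).range.comap (AddMonoidHom.snd (Additive (AS S L)ˣ) (PrimeOut S L →₀ ℤ)) := by
    apply le_antisymm
    · refine sup_le ?_ ?_
      · rintro _ ⟨j, rfl⟩
        exact ⟨0, by simp⟩
      · rintro _ ⟨x, rfl⟩
        exact ⟨x, rfl⟩
    · rintro ⟨j, d⟩ ⟨x, hx⟩
      have hx' : ordHom S L x = d := hx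
      rw [AddSubgroup.mem_sup]
      refine ⟨(j - unitsDiag S L x, 0), ⟨j - unitsDiag S L x, rfl⟩, diagHom S L x, ⟨x, rfl⟩, ?_⟩
      refine Prod.ext ?_ ?_
      · simp
      · simp [hx']
  have hrange : ((principal S L).mkQ.toAddMonoidHom).range = ⊤ :=
    AddMonoidHom.range_eq_top.2 hsurj
  rw [h1, AddSubgroup.index_map, hker, h2, hrange, AddSubgroup.index_top, mul_one,
    AddSubgroup.index_comap_of_surjective]
  exact fun d => ⟨(0, d), rfl⟩

variable (G : Type) [Group G] [MulSemiringAction G L]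

lemma jToC_equivariant (g : G) (j : Additive (AS S L)ˣ) :
    jToC S L (jRepr G S L g j) = cRepr S G L g (jToC S L j) := by
  rw [jToC_apply, jToC_apply]
  change _ = (principal S L).mkQ (jdRepr S G L g ((j, 0) : JD S L))
  have h : ((jRepr G S L g j, 0) : JD S L) = jdRepr S G L g ((j, 0) : JD S L) := by
    refine Prod.ext rfl ?_
    simp [jdRepr, Representation.prod]
  rw [h]

lemma jToCRepHom_apply (j : Additive (AS S L)ˣ) :
    (jToCRepHom S G L).hom j = jToC S L j := rfl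

end JToC

/-! ## 4. Specs -/

/-- **(J) Herbrand indices of the `S`-idèles**: for `L/K` cyclic with generator `σ`,
`h₀(J_S(L)) = ∏_{v ∈ S_K} e_v f_v` and `h₁(J_S(L)) = 1`.
(Leaf G-LOC: `(L ⊗ ℚ_q)ˣ = ∏_{v | q} Ind_{G_w}^G L_wˣ`, Shapiro in Herbrand form, and the local
norm index `[K_vˣ : N L_wˣ] = e_v f_v`, Hilbert 90.) -/
def JHerbrandSpec : Prop :=
  ∀ (K L : Type) [Field K] [Field L] [NumberField K] [NumberField L] [Algebra K L]
    [IsGalois K L] (σ : L ≃ₐ[K] L), (∀ τ : L ≃ₐ[K] L, τ ∈ Subgroup.zpowers σ) →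
    ∀ S : Finset Nat.Primes,
      h0 (gAct (JRep (L ≃ₐ[K] L) S L) σ) (Nat.card (L ≃ₐ[K] L)) =
        finDegProd K L (primesOver S K) ∧
      h1 (gAct (JRep (L ≃ₐ[K] L) S L) σ) (Nat.card (L ≃ₐ[K] L)) = 1

/-- **(Cl) finiteness of the `S`-class group**: `div(Lˣ)` has finite index in `Div^S(L)`. -/
def ClSFiniteSpec : Prop :=
  ∀ (L : Type) [Field L] [NumberField L] (S : Finset Nat.Primes), (ordHom S L).range.index ≠ 0

/-- **(FI) first inequality, Herbrand form**: for `L/K` cyclic with generator `σ` and `S ≠ ∅`,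
`h₀(C_S(L)) * ∏_{v | ∞} n_v = h₁(C_S(L)) * [L : K]`, both indices finite. -/
def FirstIneqSpec : Prop :=
  ∀ (K L : Type) [Field K] [Field L] [NumberField K] [NumberField L] [Algebra K L]
    [IsGalois K L] (σ : L ≃ₐ[K] L), (∀ τ : L ≃ₐ[K] L, τ ∈ Subgroup.zpowers σ) →
    ∀ S : Finset Nat.Primes, S.Nonempty →
      h0 (gAct (CRep S (L ≃ₐ[K] L) L) σ) (Nat.card (L ≃ₐ[K] L)) ≠ 0 ∧
      h1 (gAct (CRep S (L ≃ₐ[K] L) L) σ) (Nat.card (L ≃ₐ[K] L)) ≠ 0 ∧
      h0 (gAct (CRep S (L ≃ₐ[K] L) L) σ) (Nat.card (L ≃ₐ[K] L)) * infDegProd K L =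
        h1 (gAct (CRep S (L ≃ₐ[K] L) L) σ) (Nat.card (L ≃ₐ[K] L)) * Module.finrank K L

/-! ## 5. Assembly -/

section Assembly

variable (K L : Type) [Field K] [Field L] [NumberField K] [NumberField L] [Algebra K L]
  [IsGalois K L]

lemma delta_gAct_LRep (σ : L ≃ₐ[K] L) :
    (delta (gAct (LRep (L ≃ₐ[K] L) L) σ) : Additive Lˣ →+ Additive Lˣ) = unitsAug K L σ := rfl

lemma normN_gAct_LRep (σ : L ≃ₐ[K] L) (hσ : ∀ τ : L ≃ₐ[K] L, τ ∈ Subgroup.zpowers σ) :
    (normN (gAct (LRep (L ≃ₐ[K] L) L) σ) (Nat.card (L ≃ₐ[K] L)) :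
      Additive Lˣ →+ Additive Lˣ) = unitsNorm K L := by
  refine AddMonoidHom.ext fun x => ?_
  refine (normN_gAct_apply (LRep (L ≃ₐ[K] L) L) σ hσ x).trans ?_
  unfold unitsNorm
  rw [AddMonoidHom.finsetSum_apply]
  rfl

lemma finDegProd_ne_zero (T : Finset (HeightOneSpectrum (𝓞 K))) : finDegProd K L T ≠ 0 := by
  unfold finDegProd
  refine Finset.prod_ne_zero_iff.2 fun v _ => mul_ne_zero ?_ ?_
  · exact Ideal.ramificationIdxIn_ne_zero (L ≃ₐ[K] L)
  · exact Ideal.inertiaDegIn_ne_zero (L ≃ₐ[K] L)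

end Assembly

lemma firstIneq_arith (a a' c c' n I P : ℕ) (ha' : a' ≠ 0) (hP : P ≠ 0)
    (hc : a * c = a' * c' * P) (hu : a * n = a' * (I * P)) : c * I = c' * n := by
  have key : (c * I) * (a' * P) = (c' * n) * (a' * P) := by
    calc (c * I) * (a' * P) = c * (a' * (I * P)) := by ring
      _ = c * (a * n) := by rw [hu]
      _ = (a * c) * n := by ring
      _ = (a' * c' * P) * n := by rw [hc]
      _ = _ := by ring
  exact Nat.eq_of_mul_eq_mul_right (Nat.pos_of_ne_zero (mul_ne_zero ha' hP)) key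

/-- **First inequality (Herbrand form) from its three inputs.** -/
theorem firstIneqSpec_of (hU : SUnitsHerbrandSpec.{0, 0}) (hJ : JHerbrandSpec)
    (hCl : ClSFiniteSpec) : FirstIneqSpec := by
  intro K L _ _ _ _ _ _ σ hσ S hS
  obtain ⟨u1, u2, u3⟩ := hU K L σ hσ (primesOver S K)
  obtain ⟨j0, j1⟩ := hJ K L σ hσ S
  unfold h0 at j0
  unfold h1 at j1
  rw [sUnits_primesOver] at u1 u2 u3
  rw [← delta_gAct_LRep, ← normN_gAct_LRep K L σ hσ] at u1 u2 u3
  have hP : finDegProd K L (primesOver S K) ≠ 0 := finDegProd_ne_zero K L _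
  have hισ : ∀ u : Additive Lˣ, unitsDiag S L (gAct (LRep (L ≃ₐ[K] L) L) σ u) =
      gAct (JRep (L ≃ₐ[K] L) S L) σ (unitsDiag S L u) :=
    fun u => unitsDiag_equivariant (L ≃ₐ[K] L) S L σ u
  have hφσ : ∀ j : Additive (AS S L)ˣ, jToC S L (gAct (JRep (L ≃ₐ[K] L) S L) σ j) =
      gAct (CRep S (L ≃ₐ[K] L) L) σ (jToC S L j) :=
    fun j => jToC_equivariant S L (L ≃ₐ[K] L) σ j
  have hJpow := gAct_pow_card (JRep (L ≃ₐ[K] L) S L) σ
  have hCpow := gAct_pow_card (CRep S (L ≃ₐ[K] L) L) σ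
  have hfin : (jToC S L).range.index ≠ 0 := by
    rw [jToC_range_index]
    exact hCl L S
  obtain ⟨⟨c0, c1⟩, hc⟩ := kerCoker
    (delta (gAct (LRep (L ≃ₐ[K] L) L) σ))
    (normN (gAct (LRep (L ≃ₐ[K] L) L) σ) (Nat.card (L ≃ₐ[K] L)))
    (delta (gAct (JRep (L ≃ₐ[K] L) S L) σ))
    (normN (gAct (JRep (L ≃ₐ[K] L) S L) σ) (Nat.card (L ≃ₐ[K] L)))
    (delta (gAct (CRep S (L ≃ₐ[K] L) L) σ))
    (normN (gAct (CRep S (L ≃ₐ[K] L) L) σ) (Nat.card (L ≃ₐ[K] L)))
    (unitsDiag S L) (jToC S L) (sUnit S L).toAddSubgroup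
    (unitsDiag_injective S L hS)
    (fun u => map_delta_of_comm hισ u) (fun u => map_normN_of_comm hισ _ u)
    (fun j => map_delta_of_comm hφσ j) (fun j => map_normN_of_comm hφσ _ j)
    (jToC_ker S L) hfin
    (fun j => delta_normN hJpow j) (fun j => normN_delta hJpow j)
    (fun c => delta_normN hCpow c) (fun c => normN_delta hCpow c)
    ⟨u1, u2⟩ ⟨by rw [j0]; exact hP, by rw [j1]; exact one_ne_zero⟩
  refine ⟨c0, c1, ?_⟩
  change hIndex _ _ * _ = hIndex _ _ * _
  rw [j0, j1, mul_one] at hc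
  exact firstIneq_arith _ _ _ _ _ _ _ u2 hP hc u3

/-! ## 6. Cohomological form -/

section Card

open groupCohomology

variable (K L : Type) [Field K] [Field L] [NumberField K] [NumberField L] [Algebra K L]
  [IsGalois K L]

/-- For `[L : K]` odd no infinite place ramifies: `∏_{v | ∞} n_v = 1`. -/
lemma infDegProd_eq_one_of_odd (hodd : Odd (Module.finrank K L)) : infDegProd K L = 1 := by
  unfold infDegProd
  refine Finset.prod_eq_one fun v _ => ?_
  rw [if_pos]
  by_contra hv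
  exact (Nat.not_even_iff_odd.2 hodd)
    (NumberField.InfinitePlace.even_finrank_of_not_isUnramifiedIn hv)

/-- **First inequality, cohomological form**: `H¹(G, C_S(L))` and `H²(G, C_S(L))` are finite and
`|H²(G, C_S(L))| * ∏_{v | ∞} n_v = |H¹(G, C_S(L))| * [L : K]`. -/
theorem firstIneq_card_of (hFI : FirstIneqSpec) (σ : L ≃ₐ[K] L)
    (hσ : ∀ τ : L ≃ₐ[K] L, τ ∈ Subgroup.zpowers σ) (S : Finset Nat.Primes) (hS : S.Nonempty) :
    Finite (groupCohomology (CRep S (L ≃ₐ[K] L) L) 1) ∧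
    Finite (groupCohomology (CRep S (L ≃ₐ[K] L) L) 2) ∧
    Nat.card (groupCohomology (CRep S (L ≃ₐ[K] L) L) 2) * infDegProd K L =
      Nat.card (groupCohomology (CRep S (L ≃ₐ[K] L) L) 1) * Module.finrank K L := by
  obtain ⟨c0, c1, hc⟩ := hFI K L σ hσ S hS
  rw [← card_H2_eq_h0 (CRep S (L ≃ₐ[K] L) L) σ hσ] at c0 hc
  rw [← card_H1_eq_h1 (CRep S (L ≃ₐ[K] L) L) σ hσ] at c1 hc
  exact ⟨(Nat.card_ne_zero.1 c1).2, (Nat.card_ne_zero.1 c0).2, hc⟩

/-- **First inequality for odd degree**: `|H²(G, C_S(L))| = [L : K] * |H¹(G, C_S(L))|`. -/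
theorem firstIneq_card_of_odd (hFI : FirstIneqSpec) (σ : L ≃ₐ[K] L)
    (hσ : ∀ τ : L ≃ₐ[K] L, τ ∈ Subgroup.zpowers σ) (S : Finset Nat.Primes) (hS : S.Nonempty)
    (hodd : Odd (Module.finrank K L)) :
    Finite (groupCohomology (CRep S (L ≃ₐ[K] L) L) 1) ∧
    Finite (groupCohomology (CRep S (L ≃ₐ[K] L) L) 2) ∧
    Nat.card (groupCohomology (CRep S (L ≃ₐ[K] L) L) 2) =
      Module.finrank K L * Nat.card (groupCohomology (CRep S (L ≃ₐ[K] L) L) 1) := by
  obtain ⟨f1, f2, h⟩ := firstIneq_card_of K L hFI σ hσ S hS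
  rw [infDegProd_eq_one_of_odd K L hodd, mul_one] at h
  exact ⟨f1, f2, by rw [h, mul_comm]⟩

/-- In particular `[L : K]` divides `|H²(G, C_S(L))|` (the first inequality proper). -/
theorem finrank_dvd_card_H2_of_odd (hFI : FirstIneqSpec) (σ : L ≃ₐ[K] L)
    (hσ : ∀ τ : L ≃ₐ[K] L, τ ∈ Subgroup.zpowers σ) (S : Finset Nat.Primes) (hS : S.Nonempty)
    (hodd : Odd (Module.finrank K L)) :
    Module.finrank K L ∣ Nat.card (groupCohomology (CRep S (L ≃ₐ[K] L) L) 2) :=
  ⟨_, (firstIneq_card_of_odd K L hFI σ hσ S hS hodd).2.2⟩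

end Card

end Fermat.Agent.S55.G.FIH895
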