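/-
S55, layer G, leaf **G-FI** (helper895), part 2: from the Herbrand form `FirstIneqSpec`
(`K`, `L`, generator `σ` of `Gal(L/K)`) to helper421's frozen interface
`FirstInequalityCycSpec` / `FirstInequalitySpec` (`G/Spec1b.lean`, `G/Spec.lean`):
a cyclic group `G` of odd order `n` acting faithfully on the number field `L`.

* `cRepr_congr`, `jRepr_congr`, `divRepr_congr` : the representations of `Defs.lean` only depend
  on the automorphism of `L` induced by `g`;
* `firstInequalityCycSpec_of : FirstIneqSpec → FirstInequalityCycSpec`;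
* `firstInequalityCycSpec_of_J`, `firstInequalitySpec_of_J` : the same from the ONLY open input
  `JHerbrandSpec` (Herbrand indices of `J_S`: `h₀ = ∏_{v ∈ S_K} e_v f_v`, `h₁ = 1`);
  `SUnitsHerbrandSpec` (helper595) and `ClSFiniteSpec` (helper604) are taken from main.

No `sorry`.
-/
import Mathlib
import Fermat.Agent.S55.G.Spec1b
import Fermat.Agent.S55.G.UnitsHerbrand
import Fermat.Agent.S55.G.ClsH604
import Fermat.Agent.S55.G.FI.FirstIneqH895

set_option autoImplicit false
set_option linter.unusedSectionVars false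
set_option linter.style.haveILetI false

open Fermat.Agent.S55.G Fermat.Agent.S55.Herbrand
open scoped NumberField TensorProduct
open IsDedekindDomain

namespace Fermat.Agent.S55.G.FIH895

/-! ## 1. The representations only depend on the induced automorphisms of `L` -/

section Congr

variable (S : Finset Nat.Primes) {G G' L : Type} [Group G] [Group G'] [Field L] [NumberField L]
  [MulSemiringAction G L] [MulSemiringAction G' L]

lemma fieldAut_congr {g : G} {g' : G'} (h : ∀ x : L, g • x = g' • x) :
    fieldAut G L g = fieldAut G' L g' :=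
  AlgEquiv.ext fun x => h x

lemma lRepr_congr {g : G} {g' : G'} (h : ∀ x : L, g • x = g' • x) :
    lRepr G L g = lRepr G' L g' := by
  refine LinearMap.ext fun x => ?_
  apply Additive.toMul.injective
  apply Units.ext
  rw [coe_lRepr_apply, coe_lRepr_apply]
  exact h _

lemma jRepr_congr {g : G} {g' : G'} (h : ∀ x : L, g • x = g' • x) :
    jRepr G S L g = jRepr G' S L g' := by
  refine LinearMap.ext fun x => ?_
  apply Additive.toMul.injective
  apply Units.ext
  rw [coe_jRepr_apply, coe_jRepr_apply]
  unfold asAut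
  simp only [MonoidHom.coe_mk, OneHom.coe_mk]
  rw [fieldAut_congr h]

lemma smul_int_congr {g : G} {g' : G'} (h : ∀ x : L, g • x = g' • x) (x : 𝓞 L) :
    g • x = g' • x := by
  apply Subtype.ext
  exact h x

lemma inv_smul_congr {g : G} {g' : G'} (h : ∀ x : L, g • x = g' • x) (x : L) :
    g⁻¹ • x = g'⁻¹ • x := by
  rw [inv_smul_eq_iff, h, smul_inv_smul]

lemma primeSMul_congr {g : G} {g' : G'} (h : ∀ x : L, g • x = g' • x)
    (w : HeightOneSpectrum (𝓞 L)) : primeSMul G g w = primeSMul G' g' w := by
  refine HeightOneSpectrum.ext (Ideal.ext fun x => ?_)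
  rw [mem_primeSMul_iff, mem_primeSMul_iff, smul_int_congr (inv_smul_congr h)]

lemma divRepr_congr {g : G} {g' : G'} (h : ∀ x : L, g • x = g' • x) :
    divRepr S G L g = divRepr S G' L g' := by
  have : primeOutMap S G L g = primeOutMap S G' L g' := by
    funext w
    exact Subtype.ext (primeSMul_congr h w.1)
  unfold divRepr
  simp only [MonoidHom.coe_mk, OneHom.coe_mk]
  rw [this]

lemma cRepr_congr {g : G} {g' : G'} (h : ∀ x : L, g • x = g' • x) :
    cRepr S G L g = cRepr S G' L g' := by
  refine LinearMap.ext fun c => ?_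
  obtain ⟨⟨j, d⟩, rfl⟩ := (principal S L).mkQ_surjective c
  change (principal S L).mkQ (jdRepr S G L g (j, d)) =
    (principal S L).mkQ (jdRepr S G' L g' (j, d))
  have : jdRepr S G L g (j, d) = jdRepr S G' L g' (j, d) := by
    change ((jRepr G S L g j, divRepr S G L g d) : JD S L) =
      (jRepr G' S L g' j, divRepr S G' L g' d)
    rw [jRepr_congr S h, divRepr_congr S h]
  rw [this]

lemma gAct_CRep_congr {g : G} {g' : G'} (h : ∀ x : L, g • x = g' • x) :
    (gAct (CRep S G L) g : AddMonoid.End (CS S L)) = gAct (CRep S G' L) g' := by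
  refine AddMonoidHom.ext fun c => ?_
  change cRepr S G L g c = cRepr S G' L g' c
  rw [cRepr_congr S h]

lemma gAct_JRep_congr {g : G} {g' : G'} (h : ∀ x : L, g • x = g' • x) :
    (gAct (JRep G S L) g : AddMonoid.End (Additive (AS S L)ˣ)) = gAct (JRep G' S L) g' := by
  refine AddMonoidHom.ext fun c => ?_
  change jRepr G S L g c = jRepr G' S L g' c
  rw [jRepr_congr S h]

end Congr

/-! ## 2. Transport to a cyclic group acting faithfully -/

open groupCohomology in
/-- **G-FI, interface form**: the Herbrand form of the first inequality gives helper421's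
`FirstInequalityCycSpec`. -/
theorem firstInequalityCycSpec_of (hFI : FirstIneqSpec) : FirstInequalityCycSpec := by
  intro n hn S G L _ _ _ _ _ _ _ hS hcard
  classical
  letI : Fintype G := Fintype.ofFinite G
  obtain ⟨g, hg⟩ := IsCyclic.exists_generator (α := G)
  have hσ : ∀ τ : L ≃ₐ[FixedPoints.subfield G L] L,
      τ ∈ Subgroup.zpowers (FixedPoints.toAlgAutMulEquiv G L g) := by
    intro τ
    obtain ⟨t, rfl⟩ := (FixedPoints.toAlgAutMulEquiv G L).surjective τ
    obtain ⟨k, rfl⟩ := Subgroup.mem_zpowers_iff.1 (hg t)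
    exact Subgroup.mem_zpowers_iff.2 ⟨k, (map_zpow (FixedPoints.toAlgAutMulEquiv G L) g k).symm⟩
  have hcardeq : Nat.card (L ≃ₐ[FixedPoints.subfield G L] L) = Nat.card G :=
    (Nat.card_congr (FixedPoints.toAlgAutMulEquiv G L).toEquiv).symm
  have hfr : Module.finrank (FixedPoints.subfield G L) L = n := by
    rw [← IsGalois.card_aut_eq_finrank, hcardeq, hcard]
  obtain ⟨c0, c1, hc⟩ := hFI (FixedPoints.subfield G L) L (FixedPoints.toAlgAutMulEquiv G L g)
    hσ S hS
  have hact : (gAct (CRep S G L) g : AddMonoid.End (CS S L)) =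
      gAct (CRep S (L ≃ₐ[FixedPoints.subfield G L] L) L) (FixedPoints.toAlgAutMulEquiv G L g) :=
    gAct_CRep_congr S fun _ => rfl
  rw [infDegProd_eq_one_of_odd _ _ (by rw [hfr]; exact hn), mul_one, hfr] at hc
  have e0 : Nat.card (groupCohomology (CRep S G L) 2) =
      h0 (gAct (CRep S (L ≃ₐ[FixedPoints.subfield G L] L) L)
        (FixedPoints.toAlgAutMulEquiv G L g)) (Nat.card (L ≃ₐ[FixedPoints.subfield G L] L)) := by
    rw [card_H2_eq_h0 (CRep S G L) g hg, hcardeq]
    exact congrArg (fun s : AddMonoid.End (CS S L) => h0 s (Nat.card G)) hact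
  have e1 : Nat.card (groupCohomology (CRep S G L) 1) =
      h1 (gAct (CRep S (L ≃ₐ[FixedPoints.subfield G L] L) L)
        (FixedPoints.toAlgAutMulEquiv G L g)) (Nat.card (L ≃ₐ[FixedPoints.subfield G L] L)) := by
    rw [card_H1_eq_h1 (CRep S G L) g hg, hcardeq]
    exact congrArg (fun s : AddMonoid.End (CS S L) => h1 s (Nat.card G)) hact
  rw [← e0] at c0 hc
  rw [← e1] at c1 hc
  exact ⟨(Nat.card_ne_zero.1 c1).2, (Nat.card_ne_zero.1 c0).2, by rw [hc, mul_comm]⟩

/-- Finiteness of the `S`-class group (helper604, `ClsH604.ordHom_range_index_ne_zero`). -/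
theorem clSFiniteSpec : ClSFiniteSpec := fun L _ _ S =>
  ClsH604.ordHom_range_index_ne_zero S L

/-- **G-FI from its last open input** `JHerbrandSpec` (cyclic groups of odd order). -/
theorem firstInequalityCycSpec_of_J (hJ : JHerbrandSpec) : FirstInequalityCycSpec :=
  firstInequalityCycSpec_of (firstIneqSpec_of sUnitsHerbrandSpec hJ clSFiniteSpec)

/-- **G-FI from its last open input** `JHerbrandSpec` (groups of odd prime order). -/
theorem firstInequalitySpec_of_J (hJ : JHerbrandSpec) : FirstInequalitySpec :=
  firstInequality_of_cyc (firstInequalityCycSpec_of_J hJ)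

/-- **G-FI from its inputs** (cyclic groups of odd order). -/
theorem firstInequalityCycSpec_of_inputs (hJ : JHerbrandSpec) (hCl : ClSFiniteSpec) :
    FirstInequalityCycSpec :=
  firstInequalityCycSpec_of (firstIneqSpec_of sUnitsHerbrandSpec hJ hCl)

/-- **G-FI from its inputs** (groups of odd prime order). -/
theorem firstInequalitySpec_of_inputs (hJ : JHerbrandSpec) (hCl : ClSFiniteSpec) :
    FirstInequalitySpec :=
  firstInequality_of_cyc (firstInequalityCycSpec_of_inputs hJ hCl)

end Fermat.Agent.S55.G.FIH895
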